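import Fermat.Agent.LT.T7.H429.FinMultLocal
import Fermat.Agent.LT.T3.M.H474.ROpMeanM
import Fermat.Agent.LT.T3.M.H709.PureRegM
import Fermat.Agent.LT.T3.M.Top
import Fermat.Agent.LT.T2.AdapterW

/-!
# Row LT, tower T7, asset `FinMult429` (helper429), part 2: FINITE MULTIPLICITY PER `EigData`

OFF-MAIN.  ADDITIVE.  Byte-identical copies of the closures of `T2/AdapterW.lean` (helper130),
`T3/M/H474/ROpMeanM.lean` (helper474), `T3/M/H709/PureRegM.lean` (helper709), `T3/M/Top.lean`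
(helper14), `T7/Level2.lean` (helper797).

`K` totally complex, `𝔫 ≠ 0`, `m_w` ANY eigenvalue functions of the sphere means (NO `IsSph0`).

* `exists_testFn_scalar429`: if the class `{φ : IsMeanLevel K 𝔫 m φ}` contains a nonzero
  function, there is ONE test function `f` of T2 (a pure tensor: the unit at the finite places,
  a smooth bi-`U(2)`-invariant bump at every infinite place) and ONE scalar `c ≠ 0` with
  `T2.conv F f φ = c • φ` for EVERY `φ` of the class.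
* `finMult429`: a bound `N` for the length of the orthonormal families of cusp functions of
  level `𝔫` with the eigenvalue functions `m` (Hilbert--Schmidt bound of T2: `n |c|² ≤ C_HS`).
* `finMultEig429`: the same for the classes `T7.IsEigFn 𝔫 r l o · C` of level 2 (any Iwahori
  condition, any eigen-data).
-/

set_option autoImplicit false
set_option linter.style.haveILetI false
set_option linter.unusedSectionVars false

open IsDedekindDomain NumberField MeasureTheory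
open Fermat.Agent.LT.H556.A0 Fermat.Agent.LT.T3.AS Fermat.Agent.LT.T3
open Fermat.Agent.LT.T3.H57

noncomputable section

namespace Fermat.Agent.LT.T7.H429

variable {K : Type} [Field K] [NumberField K]

attribute [local instance] Fermat.Agent.LT.T2.borelG

local instance borelGLb429 : MeasurableSpace (GL (Fin 2) ℂ) := borel (GL (Fin 2) ℂ)

local instance borelSpaceGLb429 : BorelSpace (GL (Fin 2) ℂ) := ⟨rfl⟩

local instance lcGLb429 : LocallyCompactSpace (GL (Fin 2) ℂ) := locallyCompact_GL2C57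

/-- A cusp function of T2 with eigenvalue functions `m` is of the class `IsMeanLevel`. -/
theorem isMeanLevel_of429 {𝔫 : Ideal (𝓞 K)} {m : InfinitePlace K → ℝ → ℂ} {φ : G K → ℂ}
    (hc : T2.IsCuspFn 𝔫 φ) (hm : ∀ w, T2.MeanEigC φ w (m w)) : M.IsMeanLevel K 𝔫 m φ :=
  ⟨hc.cont, hc.level_inv, hc.arch_scalar, hc.arch_compact, hm⟩

/-- **THE SCALAR LEMMA.**  ONE test function acts on the whole class of the eigenvalue functions
`m` by ONE nonzero scalar. -/
theorem exists_testFn_scalar429 (hcx : ∀ w : InfinitePlace K, w.IsComplex) (𝔫 : Ideal (𝓞 K))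
    (h𝔫 : 𝔫 ≠ ⊥) (F : T2.Frame K) (m : InfinitePlace K → ℝ → ℂ)
    (hex : ∃ ψ₀ : G K → ℂ, M.IsMeanLevel K 𝔫 m ψ₀ ∧ ∃ g₀ : G K, ψ₀ g₀ ≠ 0) :
    ∃ (f : G K → ℂ) (c : ℂ), T2.IsTestFn 𝔫 f ∧ c ≠ 0 ∧
      ∀ φ : G K → ℂ, M.IsMeanLevel K 𝔫 m φ → T2.conv F f φ = c • φ := by
  obtain ⟨ψ₀, hψ, g₀, hg₀⟩ := hex
  set μc : Measure (GL (Fin 2) ℂ) := Measure.haar with hμc
  have hloc : ∀ w : InfinitePlace K, ∃ Fw : GL (Fin 2) ℂ → ℂ, IsCplxTest Fw ∧
      IsCplxSmooth Fw ∧ ∃ C : ℂ, C ≠ 0 ∧ M.ActsByMean μc Fw (m w) C := by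
    intro w
    have h1 := M.H474.isLocMean_of474 hcx 𝔫 m ψ₀ hψ g₀ w
    refine exists_bump_ne_zero429 μc h1 1 ?_
    show ψ₀ (g₀ * infEmbAt57 hcx w 1) ≠ 0
    rw [map_one, mul_one]
    exact hg₀
  choose Fw hFt hFs Cw hC0 hCact using hloc
  set f₀ : ∀ v : HeightOneSpectrum (𝓞 K), GL (Fin 2) (v.adicCompletion K) → ℂ :=
    fun _ _ => 1 with hf₀
  have hP : ∀ v ∈ (∅ : Finset (HeightOneSpectrum (𝓞 K))), ¬ v.asIdeal ∣ 𝔫 :=
    fun v hv => absurd hv (Finset.notMem_empty v)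
  have hreg := M.H709.pureRegMC709 K 𝔫 h𝔫 ∅ hP f₀ Fw
    (fun v hv => absurd hv (Finset.notMem_empty v))
    (fun v hv => absurd hv (Finset.notMem_empty v)) hFt
  have hsm : IsSmoothInf K (M.pureFnM K 𝔫 ∅ f₀ Fw) := M.pureSmoothM 𝔫 ∅ f₀ Fw hFs
  obtain ⟨κ₁, hκ, hR⟩ := M.H474.rOpMeanMC474 K hcx F.μ F.haar μc inferInstance 𝔫 h𝔫 ∅ hP
  refine ⟨M.pureFnM K 𝔫 ∅ f₀ Fw, κ₁ * ∏ w : InfinitePlace K, Cw w, ?_, ?_, ?_⟩
  · exact
      { cont := hreg.1
        smooth := hsm
        cpt := hreg.2.1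
        level_right := fun u hu g => (hreg.2.2.1.1 u hu g).2
        level_left := fun u hu g => (hreg.2.2.1.1 u hu g).1
        arch_right := fun w k hk g => (hreg.2.2.1.2 w k hk g).2
        arch_left := fun w k hk g => (hreg.2.2.1.2 w k hk g).1 }
  · exact mul_ne_zero hκ (Finset.prod_ne_zero_iff.2 fun w _ => hC0 w)
  · intro φ hφ
    funext x
    have h2 := hR (fun _ _ => 0) Cw m f₀ Fw
      (fun v hv => absurd hv (Finset.notMem_empty v))
      (fun v hv => absurd hv (Finset.notMem_empty v))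
      (fun v hv => absurd hv (Finset.notMem_empty v)) hFt hCact φ hφ
      (fun _ => 0) (fun _ => 0) (fun _ => 0) (fun _ => 0)
      (fun v hv => absurd hv (Finset.notMem_empty v))
      (fun v hv => absurd hv (Finset.notMem_empty v))
      (fun v hv => absurd hv (Finset.notMem_empty v))
      (fun v hv => absurd hv (Finset.notMem_empty v)) x
    rw [Finset.prod_empty, mul_one] at h2
    show T2.conv F (M.pureFnM K 𝔫 ∅ f₀ Fw) φ x = (κ₁ * ∏ w : InfinitePlace K, Cw w) * φ x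
    rw [← h2]
    rfl

/-- **FINITE MULTIPLICITY (T2 vocabulary).**  The orthonormal families of cusp functions of
level `𝔫` with the eigenvalue functions `m` of the sphere means have bounded length. -/
theorem finMult429 (hcx : ∀ w : InfinitePlace K, w.IsComplex) (𝔫 : Ideal (𝓞 K)) (h𝔫 : 𝔫 ≠ ⊥)
    (F : T2.Frame K) (m : InfinitePlace K → ℝ → ℂ) :
    ∃ N : ℕ, ∀ (n : ℕ) (φ : Fin n → G K → ℂ), (∀ i, T2.IsCuspFn 𝔫 (φ i)) →
      (∀ i w, T2.MeanEigC (φ i) w (m w)) →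
      (∀ i j, T2.pair F (φ i) (φ j) = if i = j then 1 else 0) → n ≤ N := by
  by_cases hex : ∃ ψ₀ : G K → ℂ, M.IsMeanLevel K 𝔫 m ψ₀ ∧ ∃ g₀ : G K, ψ₀ g₀ ≠ 0
  swap
  · refine ⟨0, fun n φ hc hm ho => ?_⟩
    by_contra hn
    have hn' : 0 < n := by omega
    have h1 : T2.pair F (φ ⟨0, hn'⟩) (φ ⟨0, hn'⟩) = 1 := by rw [ho, if_pos rfl]
    exact hex ⟨φ ⟨0, hn'⟩, isMeanLevel_of429 (hc _) (hm _), T2.H566.exists_ne_zero566 F h1⟩
  obtain ⟨f, c, hf, hc0, hact⟩ := exists_testFn_scalar429 hcx 𝔫 h𝔫 F m hex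
  obtain ⟨C, hC⟩ := (T2.estimates_closed K 𝔫 h𝔫).2.2.2.2.2.1 F f hf
  have hcpos : 0 < ‖c‖ ^ 2 := by
    have := norm_pos_iff.2 hc0
    positivity
  refine ⟨⌈C / ‖c‖ ^ 2⌉₊, fun n φ hc hm ho => ?_⟩
  have h1 := hC n φ hc ho
  have h2 : ∀ i, T2.nsq F (T2.conv F f (φ i)) = ‖c‖ ^ 2 := by
    intro i
    rw [hact (φ i) (isMeanLevel_of429 (hc i) (hm i)), T2.nsq_smul130]
    have : T2.nsq F (φ i) = 1 := by
      unfold T2.nsq
      rw [ho, if_pos rfl, Complex.one_re]
    rw [this, mul_one]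
  simp only [h2, Finset.sum_const, Finset.card_univ, Fintype.card_fin, nsmul_eq_mul] at h1
  have h3 : (n : ℝ) ≤ C / ‖c‖ ^ 2 := by
    rw [le_div_iff₀ hcpos]
    exact h1
  exact Nat.cast_le.1 (h3.trans (Nat.le_ceil _))

/-! ## The class as a finite dimensional subspace -/

/-- (MATHLIB ONLY.)  A subspace of a complex inner product space whose orthonormal families have
bounded length is finite dimensional. -/
theorem finite_of_orthonormal_bound429 {V : Type*} [NormedAddCommGroup V]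
    [InnerProductSpace ℂ V] (E : Submodule ℂ V) (N : ℕ)
    (h : ∀ (n : ℕ) (v : Fin n → V), (∀ i, v i ∈ E) → Orthonormal ℂ v → n ≤ N) :
    Module.Finite ℂ E := by
  have hr : Module.rank ℂ E ≤ N := by
    apply rank_le
    intro s hs
    set f : Fin s.card → E := fun i => ((s.equivFin.symm i : s) : E) with hf
    have hli : LinearIndependent ℂ f := hs.comp _ s.equivFin.symm.injective
    have ho : Orthonormal ℂ (InnerProductSpace.gramSchmidtNormed ℂ f) :=
      InnerProductSpace.gramSchmidtNormed_orthonormal hli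
    refine h s.card (fun i => ((InnerProductSpace.gramSchmidtNormed ℂ f i : E) : V))
      (fun i => (InnerProductSpace.gramSchmidtNormed ℂ f i).2) ?_
    exact ho.comp_linearIsometry E.subtypeₗᵢ
  exact Module.rank_lt_aleph0_iff.1 (lt_of_le_of_lt hr (Cardinal.natCast_lt_aleph0 (n := N)))

section Class

variable (hcx : ∀ w : InfinitePlace K, w.IsComplex) (hFD : T1.AddFundDomC K)
  (𝔫 : Ideal (𝓞 K)) (F : T2.Frame K) (hOG : T2.OpsGood K 𝔫)

/-- The cusp functions of level `𝔫` with the eigenvalue functions `m` of the sphere means. -/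
def meanSub429 (m : InfinitePlace K → ℝ → ℂ) : Submodule ℂ (T2.H566.CuspV566 hFD 𝔫) where
  carrier := {x | ∀ w, T2.MeanEigC x.fn w (m w)}
  zero_mem' := by
    intro w d hd Y hY g
    have h0 := T2.H566.op_zero566 𝔫 F hOG (T2.IsOp.sphere w (hcx w) d hd Y hY)
    show T2.sphereMean Y (fun _ => (0 : ℂ)) g = m w d * 0
    rw [h0, mul_zero]
  add_mem' := by
    intro x y hx hy w d hd Y hY g
    have h0 := T2.H566.op_add566 𝔫 F hOG (T2.IsOp.sphere w (hcx w) d hd Y hY)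
      x.isCuspFn y.isCuspFn
    show T2.sphereMean Y (x.fn + y.fn) g = m w d * (x.fn g + y.fn g)
    rw [h0, mul_add, ← hx w d hd Y hY g, ← hy w d hd Y hY g]
    rfl
  smul_mem' := by
    intro c x hx w d hd Y hY g
    have h0 := T2.H566.op_smul566 𝔫 F hOG (T2.IsOp.sphere w (hcx w) d hd Y hY) c x.isCuspFn
    show T2.sphereMean Y (c • x.fn) g = m w d * (c * x.fn g)
    rw [h0, mul_left_comm, ← hx w d hd Y hY g]
    rfl

/-- The underlying function, as a linear map. -/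
def fnLin429 : T2.H566.CuspV566 hFD 𝔫 →ₗ[ℂ] (G K → ℂ) where
  toFun := fun x => x.fn
  map_add' := fun _ _ => rfl
  map_smul' := fun _ _ => rfl

/-- **The class of the eigenvalue functions `m` is finite dimensional.** -/
theorem finite_meanSub429 (h𝔫 : 𝔫 ≠ ⊥) (hPD : T2.PairDefinite K 𝔫)
    (m : InfinitePlace K → ℝ → ℂ) : Module.Finite ℂ (meanSub429 hcx hFD 𝔫 F hOG m) := by
  letI iN : NormedAddCommGroup (T2.H566.CuspV566 hFD 𝔫) := T2.H566.cuspNormed566 hFD 𝔫 F hPD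
  letI iI : InnerProductSpace ℂ (T2.H566.CuspV566 hFD 𝔫) := T2.H566.cuspInner566 hFD 𝔫 F hPD
  obtain ⟨N, hN⟩ := finMult429 hcx 𝔫 h𝔫 F m
  refine finite_of_orthonormal_bound429 (meanSub429 hcx hFD 𝔫 F hOG m) N ?_
  intro n v hv ho
  refine hN n (fun i => (v i).fn) (fun i => (v i).isCuspFn) (fun i w => hv i w) ?_
  intro i j
  have h1 := (orthonormal_iff_ite.1 ho) j i
  rw [T2.H566.inner_eq566] at h1
  rw [h1]
  by_cases hij : i = j
  · rw [if_pos hij, if_pos hij.symm]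
  · rw [if_neg hij, if_neg (Ne.symm hij)]

end Class

/-- **FINITE MULTIPLICITY PER `EigData` (T7 vocabulary)** `= WB776.ClassFinC776 K`, verbatim.
For a totally complex `K`, every level `𝔫 ≠ 0`, every Iwahori condition `(l, o)` and EVERY
eigen-data `C` (NO `IsSph0`): the members of the class `IsEigFn 𝔫 r l o · C` lie in ONE finite
dimensional space of functions.  (Only the eigenvalue functions `C.m` of the sphere means are
used.) -/
theorem classFinGen429 (hcx : ∀ w : InfinitePlace K, w.IsComplex) (𝔫 : Ideal (𝓞 K)) (r : G K)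
    (l : ℕ) (o : ℕ → HeightOneSpectrum (𝓞 K)) (C : EigData K) (h𝔫 : 𝔫 ≠ ⊥)
    (_hr : T5.IsRayGen r) :
    ∃ W : Submodule ℂ (G K → ℂ), Module.Finite ℂ W ∧
      ∀ ψ : G K → ℂ, IsEigFn 𝔫 r l o ψ C → ψ ∈ W := by
  obtain ⟨F⟩ := T2.frame_closed K
  have hFD : T1.AddFundDomC K := (T1.t1Out K).addFundDom
  have hPD := T2.pairDefinite_closed K 𝔫 h𝔫
  have hOG := (T2.ops_closed K 𝔫 h𝔫).1
  haveI := finite_meanSub429 hcx hFD 𝔫 F hOG h𝔫 hPD C.m
  refine ⟨(meanSub429 hcx hFD 𝔫 F hOG C.m).map (fnLin429 hFD 𝔫), inferInstance, ?_⟩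
  intro ψ hψ
  have hc : T2.IsCuspFn 𝔫 ψ := T2.isCuspFn_of_isWFn130 hψ.inv
  exact Submodule.mem_map.2 ⟨T2.H566.CuspV566.mk ψ hc, fun w => hψ.mean w, rfl⟩

/-- The bound on the orthonormal families of a class of level 2. -/
theorem finMultEig429 (hcx : ∀ w : InfinitePlace K, w.IsComplex) (𝔫 : Ideal (𝓞 K))
    (h𝔫 : 𝔫 ≠ ⊥) (F : T2.Frame K) (r : G K) (l : ℕ) (o : ℕ → HeightOneSpectrum (𝓞 K))
    (C : EigData K) :
    ∃ N : ℕ, ∀ (n : ℕ) (φ : Fin n → G K → ℂ), (∀ i, IsEigFn 𝔫 r l o (φ i) C) →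
      (∀ i j, T2.pair F (φ i) (φ j) = if i = j then 1 else 0) → n ≤ N := by
  obtain ⟨N, hN⟩ := finMult429 hcx 𝔫 h𝔫 F C.m
  exact ⟨N, fun n φ hφ ho => hN n φ (fun i => T2.isCuspFn_of_isWFn130 (hφ i).inv)
    (fun i w => (hφ i).mean w) ho⟩

end Fermat.Agent.LT.T7.H429

end
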