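import Fermat.Agent.LT.T3.M.H96.MeanActs
import Fermat.Agent.LT.T3.H811.Reg
import Fermat.Agent.LT.T3.H736.ASRegSmooth

/-!
# Row LT, tower T7, asset `FinMult429` (helper429), part 1: THE LOCAL LEMMA at a complex place

OFF-MAIN.  Mathlib + the local vocabulary of T3 (`AS.IsCplxTest`, `AS.IsCplxSmooth`,
`M.IsLocMean`, `M.ActsByMean`); byte-identical copies of the files of helper96, helper811,
helper736, helper614, helper203, helper694.

`exists_bump_ne_zero429`: if SOME function `Ψ` on `GL₂(ℂ)` is an eigenfunction of the sphere means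
with eigenvalue function `m` (`M.IsLocMean m Ψ`) and `Ψ ≠ 0`, then there is a smooth
bi-`U(2)`-invariant test function `F` on `GL₂(ℂ)` which acts on ALL the eigenfunctions with the
eigenvalue function `m` by ONE scalar `C ≠ 0`.

Proof.  `F_ε(h) = b_ε(chD h - 1) b₁(log |det h|)`, `b` smooth bumps; the support of `F_ε` lies in
the compact region `{chD ≤ 1 + ε, |log |det|| ≤ 1}` (helper811), which shrinks to `{chD ≤ 1}`,
where `Ψ(y₀ h) = Ψ(y₀)` (Cartan, helper203).  By compactness `|Ψ(y₀ h) - Ψ(y₀)| ≤ |Ψ(y₀)| / 2` on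
the support of `F_ε` for `ε` small, so `∫ Ψ(y₀ h) F_ε(h) dμ ≠ 0`; the scalar is the one of
`actsByMean96` (helper96).
-/

set_option autoImplicit false
set_option linter.style.haveILetI false
set_option linter.unusedSectionVars false

open MeasureTheory Set Filter Topology
open Fermat.Agent.LT.H556.A0 Fermat.Agent.LT.T3.AS Fermat.Agent.LT.T3.H614
open Fermat.Agent.LT.T3.H315 Fermat.Agent.LT.T3.H694 Fermat.Agent.LT.T3
open Fermat.Agent.LT.T3.H811

noncomputable section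

namespace Fermat.Agent.LT.T7.H429

open Fermat.Agent.LT.T3.M

/-- The bump of inner radius `ε / 2` and outer radius `ε` on the line. -/
def lineBump429 (ε : ℝ) (hε : 0 < ε) : ContDiffBump (0 : ℝ) where
  rIn := ε / 2
  rOut := ε
  rIn_pos := by positivity
  rIn_lt_rOut := by linarith

/-- The real profile of the test function. -/
def profile429 (ε : ℝ) (hε : 0 < ε) (p : ℝ × ℝ) : ℝ :=
  lineBump429 ε hε (p.1 - 1) * lineBump429 1 one_pos p.2

/-- THE TEST FUNCTION `F_ε(h) = b_ε(chD h - 1) b₁(log |det h|)`. -/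
def bump429 (ε : ℝ) (hε : 0 < ε) (h : GL (Fin 2) ℂ) : ℂ :=
  ((profile429 ε hε (chD614 (h : Matrix (Fin 2) (Fin 2) ℂ),
    Real.log ‖(h : Matrix (Fin 2) (Fin 2) ℂ).det‖) : ℝ) : ℂ)

theorem contDiff_profile429 (ε : ℝ) (hε : 0 < ε) :
    ContDiff ℝ ((⊤ : ℕ∞) : WithTop ℕ∞) (profile429 ε hε) := by
  unfold profile429
  refine ContDiff.mul ?_ ?_
  · exact (lineBump429 ε hε).contDiff.comp (contDiff_fst.sub contDiff_const)
  · exact (lineBump429 1 one_pos).contDiff.comp contDiff_snd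

theorem profile_nonneg429 (ε : ℝ) (hε : 0 < ε) (p : ℝ × ℝ) : 0 ≤ profile429 ε hε p :=
  mul_nonneg (ContDiffBump.nonneg _) (ContDiffBump.nonneg _)

theorem profile_le_one429 (ε : ℝ) (hε : 0 < ε) (p : ℝ × ℝ) : profile429 ε hε p ≤ 1 := by
  unfold profile429
  calc lineBump429 ε hε (p.1 - 1) * lineBump429 1 one_pos p.2 ≤ 1 * 1 :=
        mul_le_mul (ContDiffBump.le_one _) (ContDiffBump.le_one _) (ContDiffBump.nonneg _)
          zero_le_one
    _ = 1 := one_mul 1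

theorem profile_one429 (ε : ℝ) (hε : 0 < ε) : profile429 ε hε (1, 0) = 1 := by
  unfold profile429
  have h1 : lineBump429 ε hε ((1 : ℝ) - 1) = 1 := by
    apply ContDiffBump.one_of_mem_closedBall
    simp only [sub_self, Metric.mem_closedBall, dist_self]
    exact (lineBump429 ε hε).rIn_pos.le
  have h2 : lineBump429 1 one_pos (0 : ℝ) = 1 := by
    apply ContDiffBump.one_of_mem_closedBall
    simp only [Metric.mem_closedBall, dist_self]
    exact (lineBump429 1 one_pos).rIn_pos.le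
  show lineBump429 ε hε ((1 : ℝ) - 1) * lineBump429 1 one_pos (0 : ℝ) = 1
  rw [h1, h2, one_mul]

theorem profile_zero_of429 (ε : ℝ) (hε : 0 < ε) (p : ℝ × ℝ)
    (hp : ¬ (|p.2| ≤ 1 ∧ p.1 ≤ 1 + ε)) : profile429 ε hε p = 0 := by
  unfold profile429
  rcases not_and_or.1 hp with h | h
  · have : lineBump429 1 one_pos p.2 = 0 := by
      apply ContDiffBump.zero_of_le_dist
      rw [Real.dist_eq, sub_zero]
      exact (not_le.1 h).le
    rw [this, mul_zero]
  · have : lineBump429 ε hε (p.1 - 1) = 0 := by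
      apply ContDiffBump.zero_of_le_dist
      rw [Real.dist_eq, sub_zero]
      have h1 : ε < p.1 - 1 := by linarith [not_le.1 h]
      exact h1.le.trans (le_abs_self _)
    rw [this, zero_mul]

theorem bump_one429 (ε : ℝ) (hε : 0 < ε) : bump429 ε hε 1 = 1 := by
  unfold bump429
  have h1 : chD614 ((1 : GL (Fin 2) ℂ) : Matrix (Fin 2) (Fin 2) ℂ) = 1 := by
    unfold chD614 hsq614
    simp
  have h2 : Real.log ‖((1 : GL (Fin 2) ℂ) : Matrix (Fin 2) (Fin 2) ℂ).det‖ = 0 := by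
    simp
  rw [h1, h2, profile_one429]
  simp

theorem continuous_coords429 :
    Continuous fun h : GL (Fin 2) ℂ =>
      (chD614 (h : Matrix (Fin 2) (Fin 2) ℂ),
        Real.log ‖(h : Matrix (Fin 2) (Fin 2) ℂ).det‖) :=
  continuous_chD811.prodMk continuous_logdet811

theorem continuous_bump429 (ε : ℝ) (hε : 0 < ε) : Continuous (bump429 ε hε) :=
  Complex.continuous_ofReal.comp
    ((contDiff_profile429 ε hε).continuous.comp continuous_coords429)

theorem bump_zero_of429 (ε : ℝ) (hε : 0 < ε) (h : GL (Fin 2) ℂ)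
    (hh : h ∉ {h : GL (Fin 2) ℂ | |Real.log ‖(h : Matrix (Fin 2) (Fin 2) ℂ).det‖| ≤ 1 ∧
      chD614 (h : Matrix (Fin 2) (Fin 2) ℂ) ≤ 1 + ε}) : bump429 ε hε h = 0 := by
  unfold bump429
  rw [profile_zero_of429 ε hε (chD614 (h : Matrix (Fin 2) (Fin 2) ℂ),
    Real.log ‖(h : Matrix (Fin 2) (Fin 2) ℂ).det‖) hh]
  simp

theorem hasCompactSupport_bump429 (ε : ℝ) (hε : 0 < ε) : HasCompactSupport (bump429 ε hε) :=
  HasCompactSupport.intro (isCompact_region811 1 (1 + ε)) (bump_zero_of429 ε hε)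

/-- **The test function is a test function.** -/
theorem isCplxTest_bump429 (ε : ℝ) (hε : 0 < ε) : IsCplxTest (bump429 ε hε) where
  cont := continuous_bump429 ε hε
  supp := hasCompactSupport_bump429 ε hε
  bi_inv := fun k k' g hk hk' => by
    have e1 : (k : Matrix (Fin 2) (Fin 2) ℂ) * (k : Matrix (Fin 2) (Fin 2) ℂ).conjTranspose = 1 :=
      hk
    have e2 : (k' : Matrix (Fin 2) (Fin 2) ℂ) * (k' : Matrix (Fin 2) (Fin 2) ℂ).conjTranspose
        = 1 := hk'
    unfold bump429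
    rw [Units.val_mul, Units.val_mul, chD614_mul_unitary_right _ _ e2,
      chD614_mul_unitary_left _ _ e1, Matrix.det_mul, Matrix.det_mul, norm_mul, norm_mul,
      norm_det_of_unitary614 _ e1, norm_det_of_unitary614 _ e2, one_mul, mul_one]

/-- **The test function is smooth.** -/
theorem isCplxSmooth_bump429 (ε : ℝ) (hε : 0 < ε) : IsCplxSmooth (bump429 ε hε) := by
  intro n h hh
  have h1 := (contDiff_profile429 ε hε).comp (coords_family_contDiff736 h hh)
  exact Complex.ofRealCLM.contDiff.comp h1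

section Core

local instance borelGL429 : MeasurableSpace (GL (Fin 2) ℂ) := borel (GL (Fin 2) ℂ)

local instance borelSpaceGL429 : BorelSpace (GL (Fin 2) ℂ) := ⟨rfl⟩

local instance sctGL429 : SecondCountableTopology (GL (Fin 2) ℂ) := secondCountable_GL694

/-- On `{chD ≤ 1}` an eigenfunction of the sphere means is constant along `y · h`. -/
theorem locMean_of_chD_le_one429 {m : ℝ → ℂ} {Ψ : GL (Fin 2) ℂ → ℂ} (hΨ : IsLocMean m Ψ)
    (y h : GL (Fin 2) ℂ) (hh : chD614 (h : Matrix (Fin 2) (Fin 2) ℂ) ≤ 1) :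
    Ψ (y * h) = Ψ y := by
  obtain ⟨k₁, k₂, t, z, d, r, hk₁, hk₂, hd, hr, hch, ht, hz, hdec⟩ := H203.cartanC203 h
  have hd0 : d = 0 := by
    by_contra hne
    have : 1 < Real.cosh d := Real.one_lt_cosh.mpr hne
    rw [hch] at this
    exact absurd hh (not_le.2 this)
  subst hd0
  have ht1 : t = 1 := by
    apply Units.ext
    rw [ht, torus_zero694]; rfl
  subst ht1
  have e1 : y * h = ((y * k₁) * z) * k₂ := by
    rw [hdec]; simp only [mul_assoc, mul_one]
  rw [e1, hΨ.unitary k₂ _ hk₂, hΨ.scalar z r hr hz, hΨ.unitary k₁ _ hk₁]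

/-- **Uniform smallness near `U(2)`.** -/
theorem exists_eps_close429 {m : ℝ → ℂ} {Ψ : GL (Fin 2) ℂ → ℂ} (hΨ : IsLocMean m Ψ)
    (y₀ : GL (Fin 2) ℂ) {δ : ℝ} (hδ : 0 < δ) :
    ∃ ε : ℝ, 0 < ε ∧ ∀ h : GL (Fin 2) ℂ,
      |Real.log ‖(h : Matrix (Fin 2) (Fin 2) ℂ).det‖| ≤ 1 →
      chD614 (h : Matrix (Fin 2) (Fin 2) ℂ) ≤ 1 + ε → ‖Ψ (y₀ * h) - Ψ y₀‖ < δ := by
  by_contra hcon
  push Not at hcon
  set t : ℕ → Set (GL (Fin 2) ℂ) := fun n =>
    {h : GL (Fin 2) ℂ | |Real.log ‖(h : Matrix (Fin 2) (Fin 2) ℂ).det‖| ≤ 1 ∧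
      chD614 (h : Matrix (Fin 2) (Fin 2) ℂ) ≤ 1 + 1 / ((n : ℝ) + 1)} ∩
    {h : GL (Fin 2) ℂ | δ ≤ ‖Ψ (y₀ * h) - Ψ y₀‖} with ht
  have hpos : ∀ n : ℕ, (0 : ℝ) < 1 / ((n : ℝ) + 1) := fun n => by positivity
  have hcl2 : IsClosed {h : GL (Fin 2) ℂ | δ ≤ ‖Ψ (y₀ * h) - Ψ y₀‖} :=
    isClosed_le continuous_const
      (((hΨ.cont.comp (continuous_const.mul continuous_id)).sub continuous_const).norm)
  have hcpt : ∀ n, IsCompact (t n) := fun n =>
    (isCompact_region811 1 (1 + 1 / ((n : ℝ) + 1))).inter_right hcl2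
  have hmono : ∀ n, t (n + 1) ⊆ t n := by
    intro n h hh
    refine ⟨⟨hh.1.1, hh.1.2.trans ?_⟩, hh.2⟩
    have h1 : (1 : ℝ) / (((n + 1 : ℕ) : ℝ) + 1) ≤ 1 / ((n : ℝ) + 1) := by
      apply one_div_le_one_div_of_le (by positivity)
      push_cast
      linarith
    linarith
  have hne : ∀ n, (t n).Nonempty := fun n => by
    obtain ⟨h, h1, h2, h3⟩ := hcon (1 / ((n : ℝ) + 1)) (hpos n)
    exact ⟨h, ⟨h1, h2⟩, h3⟩
  obtain ⟨h, hh⟩ := IsCompact.nonempty_iInter_of_sequence_nonempty_isCompact_isClosed t hmono hne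
    (hcpt 0) (fun n => (hcpt n).isClosed)
  rw [Set.mem_iInter] at hh
  have hch : chD614 (h : Matrix (Fin 2) (Fin 2) ℂ) ≤ 1 := by
    apply le_of_forall_pos_lt_add
    intro η hη
    obtain ⟨n, hn⟩ := exists_nat_one_div_lt hη
    have := (hh n).1.2
    linarith
  have h0 := (hh 0).2
  have h1 : δ ≤ ‖Ψ (y₀ * h) - Ψ y₀‖ := h0
  rw [locMean_of_chD_le_one429 hΨ y₀ h hch, sub_self, norm_zero] at h1
  exact absurd hδ (not_lt.2 h1)

/-- **THE LOCAL LEMMA.**  If the eigenvalue function `m` is realised by a nonzero function, some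
smooth test function acts on all the eigenfunctions with the eigenvalue function `m` by ONE
nonzero scalar. -/
theorem exists_bump_ne_zero429 (μ : Measure (GL (Fin 2) ℂ)) [μ.IsHaarMeasure] {m : ℝ → ℂ}
    {Ψ : GL (Fin 2) ℂ → ℂ} (hΨ : IsLocMean m Ψ) (y₀ : GL (Fin 2) ℂ) (hy : Ψ y₀ ≠ 0) :
    ∃ F : GL (Fin 2) ℂ → ℂ, IsCplxTest F ∧ IsCplxSmooth F ∧
      ∃ C : ℂ, C ≠ 0 ∧ ActsByMean μ F m C := by
  have hδ : 0 < ‖Ψ y₀‖ / 2 := by
    have := norm_pos_iff.2 hy
    positivity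
  obtain ⟨ε, hε, hclose⟩ := exists_eps_close429 hΨ y₀ hδ
  have hT := isCplxTest_bump429 ε hε
  refine ⟨bump429 ε hε, hT, isCplxSmooth_bump429 ε hε, _, ?_,
    H96.actsByMean96 μ (bump429 ε hε) hT m⟩
  intro hC
  have hact := H96.actsByMean96 μ (bump429 ε hε) hT m Ψ hΨ y₀
  rw [hC, zero_mul] at hact
  -- the real profile on the group
  set Fr : GL (Fin 2) ℂ → ℝ := fun h => profile429 ε hε
    (chD614 (h : Matrix (Fin 2) (Fin 2) ℂ), Real.log ‖(h : Matrix (Fin 2) (Fin 2) ℂ).det‖)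
    with hFr
  have hFrc : Continuous Fr := (contDiff_profile429 ε hε).continuous.comp continuous_coords429
  have hFrs : HasCompactSupport Fr :=
    HasCompactSupport.intro (isCompact_region811 1 (1 + ε)) fun h hh =>
      profile_zero_of429 ε hε _ hh
  have hFr0 : ∀ h, 0 ≤ Fr h := fun h => profile_nonneg429 ε hε _
  have hFr1 : Fr 1 ≠ 0 := by
    have := bump_one429 ε hε
    unfold bump429 at this
    intro h0
    rw [show profile429 ε hε (chD614 ((1 : GL (Fin 2) ℂ) : Matrix (Fin 2) (Fin 2) ℂ),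
      Real.log ‖((1 : GL (Fin 2) ℂ) : Matrix (Fin 2) (Fin 2) ℂ).det‖) = Fr 1 from rfl, h0] at this
    simp at this
  have hIpos : 0 < ∫ h, Fr h ∂μ :=
    hFrc.integral_pos_of_hasCompactSupport_nonneg_nonzero hFrs hFr0 hFr1
  have hFri : Integrable Fr μ := hFrc.integrable_of_hasCompactSupport hFrs
  have hbump : ∀ h, bump429 ε hε h = ((Fr h : ℝ) : ℂ) := fun h => rfl
  -- the difference
  have hdc : Continuous fun h : GL (Fin 2) ℂ => (Ψ (y₀ * h) - Ψ y₀) * bump429 ε hε h :=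
    ((hΨ.cont.comp (continuous_const.mul continuous_id)).sub continuous_const).mul
      (continuous_bump429 ε hε)
  have hds : HasCompactSupport fun h : GL (Fin 2) ℂ => (Ψ (y₀ * h) - Ψ y₀) * bump429 ε hε h :=
    (hasCompactSupport_bump429 ε hε).mul_left
  have hdi : Integrable (fun h : GL (Fin 2) ℂ => (Ψ (y₀ * h) - Ψ y₀) * bump429 ε hε h) μ :=
    hdc.integrable_of_hasCompactSupport hds
  have hbi : Integrable (fun h : GL (Fin 2) ℂ => Ψ y₀ * bump429 ε hε h) μ :=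
    ((continuous_bump429 ε hε).integrable_of_hasCompactSupport
      (hasCompactSupport_bump429 ε hε)).const_mul _
  have hsplit : ∫ h, Ψ (y₀ * h) * bump429 ε hε h ∂μ
      = (∫ h, (Ψ (y₀ * h) - Ψ y₀) * bump429 ε hε h ∂μ) + Ψ y₀ * ((∫ h, Fr h ∂μ : ℝ) : ℂ) := by
    rw [← integral_complex_ofReal, ← integral_const_mul, ← integral_add hdi]
    · refine integral_congr_ae (Filter.Eventually.of_forall fun h => ?_)
      show Ψ (y₀ * h) * bump429 ε hε h
        = (Ψ (y₀ * h) - Ψ y₀) * bump429 ε hε h + Ψ y₀ * ((Fr h : ℝ) : ℂ)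
      rw [← hbump h]
      ring
    · exact hbi
  have hbound : ‖∫ h, (Ψ (y₀ * h) - Ψ y₀) * bump429 ε hε h ∂μ‖
      ≤ ‖Ψ y₀‖ / 2 * ∫ h, Fr h ∂μ := by
    calc ‖∫ h, (Ψ (y₀ * h) - Ψ y₀) * bump429 ε hε h ∂μ‖
        ≤ ∫ h, ‖(Ψ (y₀ * h) - Ψ y₀) * bump429 ε hε h‖ ∂μ := norm_integral_le_integral_norm _
      _ ≤ ∫ h, ‖Ψ y₀‖ / 2 * Fr h ∂μ := by
          refine integral_mono_of_nonneg (Filter.Eventually.of_forall fun h => norm_nonneg _)
            (hFri.const_mul _) (Filter.Eventually.of_forall fun h => ?_)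
          show ‖(Ψ (y₀ * h) - Ψ y₀) * bump429 ε hε h‖ ≤ ‖Ψ y₀‖ / 2 * Fr h
          rw [norm_mul, hbump h, Complex.norm_real, Real.norm_of_nonneg (hFr0 h)]
          by_cases hreg : h ∈ {h : GL (Fin 2) ℂ |
              |Real.log ‖(h : Matrix (Fin 2) (Fin 2) ℂ).det‖| ≤ 1 ∧
              chD614 (h : Matrix (Fin 2) (Fin 2) ℂ) ≤ 1 + ε}
          · exact mul_le_mul_of_nonneg_right (hclose h hreg.1 hreg.2).le (hFr0 h)
          · have : Fr h = 0 := profile_zero_of429 ε hε _ hreg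
            rw [this, mul_zero, mul_zero]
      _ = ‖Ψ y₀‖ / 2 * ∫ h, Fr h ∂μ := integral_const_mul _ _
  rw [hsplit] at hact
  have hkey : Ψ y₀ * ((∫ h, Fr h ∂μ : ℝ) : ℂ)
      = -(∫ h, (Ψ (y₀ * h) - Ψ y₀) * bump429 ε hε h ∂μ) := by
    rw [eq_neg_iff_add_eq_zero, add_comm]
    exact hact
  have hn := congrArg norm hkey
  rw [norm_mul, norm_neg, Complex.norm_real, Real.norm_of_nonneg hIpos.le] at hn
  have hΨpos : 0 < ‖Ψ y₀‖ := norm_pos_iff.2 hy
  nlinarith [hbound, hn, mul_pos hΨpos hIpos]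

end Core

end Fermat.Agent.LT.T7.H429

end
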